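import Mathlib

/-!
# S17 / W-HM, part (2): an elementary bound for the `p`-adic valuation of the discriminant

For a number field `K` of degree `n` and a prime `p`: if `p ^ e ∣ discr K` then `e ≤ 2 * n ^ 2`.

The proof is global and elementary (no local fields): if `y` lies in the trace dual of `𝓞 K`
and `z = p ^ a • y` is integral with `a ≥ 2 n - 1`, then all traces `Tr (z ^ j)`, `j ≥ 1`, are
divisible by `p ^ a`; Newton's identities give `p ^ a ∣ k * e_k (z)` for the elementary
symmetric functions of the conjugates of `z`, hence `p ^ k ∣ e_k (z)`, hence `z / p` is integral.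
-/

set_option autoImplicit false

namespace Fermat.Agent.S17.H557

open Polynomial Finset

/-- If `p ^ a ∣ k * c` with `k ≥ 1` and `a ≥ 2 k - 1`, then `p ^ k ∣ c`. -/
lemma pow_dvd_of_pow_dvd_mul {p : ℕ} (hp : p.Prime) {a k : ℕ} (hk : 0 < k)
    (hak : 2 * k ≤ a + 1) {c : ℤ} (h : (p : ℤ) ^ a ∣ (k : ℤ) * c) : (p : ℤ) ^ k ∣ c := by
  set v := k.factorization p with hv
  have hvk : v < k := Nat.factorization_lt p hk.ne'
  have hk' : p ^ v * (k / p ^ v) = k := Nat.ordProj_mul_ordCompl_eq_self k p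
  have hnd : ¬ p ∣ k / p ^ v := Nat.not_dvd_ordCompl hp hk.ne'
  have hcop : IsCoprime ((p : ℤ) ^ k) ((k / p ^ v : ℕ) : ℤ) := by
    apply IsCoprime.pow_left
    rw [Int.isCoprime_iff_gcd_eq_one, Int.gcd_natCast_natCast]
    exact (Nat.Prime.coprime_iff_not_dvd hp).mpr hnd
  have h1 : (p : ℤ) ^ (v + k) ∣ (k : ℤ) * c :=
    (pow_dvd_pow (p : ℤ) (by omega)).trans h
  have h2 : (k : ℤ) * c = (p : ℤ) ^ v * (((k / p ^ v : ℕ) : ℤ) * c) := by
    rw [← mul_assoc]
    congr 1
    exact_mod_cast hk'.symm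
  rw [h2, pow_add] at h1
  have h3 : (p : ℤ) ^ k ∣ ((k / p ^ v : ℕ) : ℤ) * c :=
    (mul_dvd_mul_iff_left (pow_ne_zero _ (by exact_mod_cast hp.ne_zero))).mp h1
  exact hcop.dvd_of_dvd_mul_left h3


/-- An element of `ℂ` which is integral over `ℤ` and becomes an integer after multiplication by a
positive natural number is an integer. -/
lemma exists_int_eq_of_isIntegral_of_mul {x : ℂ} (hx : IsIntegral ℤ x) {k : ℕ} (hk : 0 < k)
    {m : ℤ} (h : (k : ℂ) * x = (m : ℂ)) : ∃ c : ℤ, x = (c : ℂ) ∧ (k : ℤ) * c = m := by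
  have hk0 : (k : ℂ) ≠ 0 := by exact_mod_cast hk.ne'
  have hxq : x = algebraMap ℚ ℂ ((m : ℚ) / (k : ℚ)) := by
    rw [map_div₀]
    simp only [map_intCast, map_natCast]
    field_simp
    rw [← h]; ring
  have hq : IsIntegral ℤ ((m : ℚ) / (k : ℚ)) := by
    rw [hxq] at hx
    exact (isIntegral_algebraMap_iff (algebraMap ℚ ℂ).injective).mp hx
  obtain ⟨c, hc⟩ := IsIntegrallyClosed.isIntegral_iff.mp hq
  refine ⟨c, ?_, ?_⟩
  · rw [hxq, ← hc]; simp
  · have hkq : (k : ℚ) ≠ 0 := by exact_mod_cast hk.ne'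
    have : (k : ℚ) * (c : ℚ) = (m : ℚ) := by
      have hc' : (c : ℚ) = (m : ℚ) / (k : ℚ) := by simpa using hc
      rw [hc']; field_simp
    exact_mod_cast this

/-- The elementary symmetric functions of a family of algebraic integers are integral. -/
lemma isIntegral_esymm {ι : Type*} [Fintype ι] (r : ι → ℂ) (hr : ∀ i, IsIntegral ℤ (r i))
    (k : ℕ) : IsIntegral ℤ ((univ.val.map r).esymm k) := by
  rw [Finset.esymm_map_val]
  exact IsIntegral.sum _ fun t _ => IsIntegral.prod _ fun i _ => hr i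

/-- **Newton's identities**, evaluated at a family of complex numbers. -/
lemma newton_eval {ι : Type*} [Fintype ι] (r : ι → ℂ) (k : ℕ) :
    (k : ℂ) * (univ.val.map r).esymm k = (-1) ^ (k + 1) *
      ∑ a ∈ antidiagonal k with a.1 < k,
        (-1) ^ a.1 * (univ.val.map r).esymm a.1 * ∑ i, r i ^ a.2 := by
  have h := congrArg (MvPolynomial.aeval r) (MvPolynomial.mul_esymm_eq_sum ι ℂ k)
  simp only [map_mul, map_natCast, map_pow, map_neg, map_one, map_sum,
    MvPolynomial.aeval_esymm_eq_multiset_esymm, MvPolynomial.psum, MvPolynomial.aeval_X] at h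
  exact h

/-- If all power sums `∑ r i ^ j`, `j ≥ 1`, of a family of algebraic integers are integers
divisible by `M`, then all elementary symmetric functions `e_k` are integers and `M ∣ k * e_k`. -/
lemma esymm_int_of_psum {ι : Type*} [Fintype ι] (r : ι → ℂ) (hr : ∀ i, IsIntegral ℤ (r i))
    (M : ℤ) (hps : ∀ j : ℕ, 0 < j → ∃ t : ℤ, ∑ i, r i ^ j = ((M * t : ℤ) : ℂ)) (k : ℕ) :
    ∃ c : ℤ, (univ.val.map r).esymm k = (c : ℂ) ∧ M ∣ (k : ℤ) * c := by
  induction k using Nat.strong_induction_on with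
  | _ k ih =>
    rcases Nat.eq_zero_or_pos k with rfl | hk
    · exact ⟨1, by simp [Multiset.esymm], by simp⟩
    · choose! t ht using hps
      choose! c hc hcM using ih
      have hsum : (k : ℂ) * (univ.val.map r).esymm k =
          ((M * ((-1) ^ (k + 1) *
            ∑ a ∈ antidiagonal k with a.1 < k, (-1) ^ a.1 * c a.1 * t a.2) : ℤ) : ℂ) := by
        rw [newton_eval]
        push_cast
        rw [Finset.mul_sum, Finset.mul_sum, Finset.mul_sum]
        refine Finset.sum_congr rfl fun a ha => ?_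
        rw [Finset.mem_filter, Finset.HasAntidiagonal.mem_antidiagonal] at ha
        rw [hc a.1 ha.2, ht a.2 (by omega)]
        push_cast
        ring
      obtain ⟨c', hc', hkc'⟩ := exists_int_eq_of_isIntegral_of_mul (isIntegral_esymm r hr k) hk hsum
      exact ⟨c', hc', hkc' ▸ dvd_mul_right _ _⟩


/-- Key step: if all power sums of the family `r` of algebraic integers are divisible by `p ^ a`
with `a ≥ 2 n - 1`, `n` the size of the family, then every `r i / p` is an algebraic integer. -/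
lemma isIntegral_div_prime_of_psum {ι : Type*} [Fintype ι] (r : ι → ℂ)
    (hr : ∀ i, IsIntegral ℤ (r i)) {p : ℕ} (hp : p.Prime) {a : ℕ}
    (ha : 2 * Fintype.card ι ≤ a + 1)
    (hps : ∀ j : ℕ, 0 < j → ∃ t : ℤ, ∑ i, r i ^ j = (((p : ℤ) ^ a * t : ℤ) : ℂ)) (i₀ : ι) :
    IsIntegral ℤ (r i₀ / (p : ℂ)) := by
  classical
  set n := Fintype.card ι with hn
  have hp0 : (p : ℂ) ≠ 0 := by exact_mod_cast hp.ne_zero
  have key := esymm_int_of_psum r hr ((p : ℤ) ^ a) hps
  choose c hc hcM using key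
  have hdvd : ∀ k, k ≤ n → (p : ℤ) ^ k ∣ c k := by
    intro k hk
    rcases Nat.eq_zero_or_pos k with rfl | hk0
    · simp
    · exact pow_dvd_of_pow_dvd_mul hp hk0 (by omega) (hcM k)
  have hc0 : c 0 = 1 := by
    have := hc 0
    simp only [Multiset.esymm, Multiset.powersetCard_zero_left, Multiset.map_singleton,
      Multiset.prod_zero, Multiset.sum_singleton] at this
    exact_mod_cast this.symm
  -- the quotients
  choose! d hd using hdvd
  have hd0 : d 0 = 1 := by
    have := hd 0 (Nat.zero_le _)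
    rw [hc0] at this
    simpa using this.symm
  -- the monic polynomial
  set q : ℤ[X] := ∑ j ∈ range n, C ((-1) ^ (j + 1) * d (j + 1)) * X ^ (n - 1 - j) with hq
  have hqdeg : q.degree < (n : WithBot ℕ) := by
    refine lt_of_le_of_lt (Polynomial.degree_sum_le _ _) ?_
    rw [Finset.sup_lt_iff (by exact WithBot.bot_lt_coe n)]
    intro j hj
    rw [Finset.mem_range] at hj
    refine lt_of_le_of_lt (Polynomial.degree_C_mul_X_pow_le _ _) ?_
    exact_mod_cast (by omega : n - 1 - j < n)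
  have hmonic : (X ^ n + q).Monic := Polynomial.monic_X_pow_add hqdeg
  refine ⟨X ^ n + q, hmonic, ?_⟩
  -- evaluation
  have hvieta : ∑ j ∈ range (n + 1), (-1 : ℂ) ^ j * ((c j : ℂ) * r i₀ ^ (n - j)) = 0 := by
    have h1 := congrArg (Polynomial.eval (r i₀))
      (Multiset.prod_X_sub_X_eq_sum_esymm (univ.val.map r))
    rw [Multiset.card_map, Finset.card_val, Finset.card_univ, ← hn] at h1
    simp only [Polynomial.eval_finsetSum, Polynomial.eval_mul, Polynomial.eval_pow,
      Polynomial.eval_neg, Polynomial.eval_one, Polynomial.eval_C, Polynomial.eval_X] at h1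
    have h2 : ((univ.val.map r).map fun t => X - C t).prod.eval (r i₀) = 0 := by
      rw [Polynomial.eval_multiset_prod]
      apply Multiset.prod_eq_zero
      rw [Multiset.mem_map]
      refine ⟨X - C (r i₀), ?_, by simp⟩
      rw [Multiset.mem_map]
      exact ⟨r i₀, Multiset.mem_map.mpr ⟨i₀, Finset.mem_univ_val i₀, rfl⟩, rfl⟩
    rw [h2] at h1
    rw [h1]
    exact Finset.sum_congr rfl fun j _ => by rw [hc j]
  have hmain : (p : ℂ) ^ n * Polynomial.eval₂ (algebraMap ℤ ℂ) (r i₀ / (p : ℂ)) (X ^ n + q) = 0 := by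
    rw [← hvieta, Finset.sum_range_succ', hq]
    simp only [Polynomial.eval₂_add, Polynomial.eval₂_pow, Polynomial.eval₂_X,
      Polynomial.eval₂_finsetSum, Polynomial.eval₂_mul, Polynomial.eval₂_C]
    rw [mul_add, Finset.mul_sum, add_comm]
    congr 1
    · refine Finset.sum_congr rfl fun j hj => ?_
      rw [Finset.mem_range] at hj
      have h3 : c (j + 1) = (p : ℤ) ^ (j + 1) * d (j + 1) := hd (j + 1) (by omega)
      rw [h3]
      have h5 : n - (j + 1) = n - 1 - j := by omega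
      rw [h5]
      obtain ⟨m, hm⟩ : ∃ m, m = n - 1 - j := ⟨_, rfl⟩
      have h4 : n = (j + 1) + m := by omega
      rw [← hm, h4]
      simp only [eq_intCast, Int.cast_mul, Int.cast_pow, Int.cast_neg, Int.cast_one,
        Int.cast_natCast, div_pow]
      field_simp
      ring
    · rw [hc0]
      simp only [pow_zero, Int.cast_one, one_mul, Nat.sub_zero, div_pow]
      field_simp
  exact (mul_eq_zero.mp hmain).resolve_left (pow_ne_zero _ hp0)


section NumberField

open NumberField Module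

variable (K : Type*) [Field K] [NumberField K]

/-- If `z ∈ K` is integral and all traces `Tr (z ^ j)`, `j ≥ 1`, are divisible by `p ^ a`,
`a ≥ 2 [K : ℚ] - 1`, then `z / p` is integral. -/
theorem isIntegral_div_prime_of_trace {p : ℕ} (hp : p.Prime) {a : ℕ}
    (ha : 2 * finrank ℚ K ≤ a + 1) {z : K} (hz : IsIntegral ℤ z)
    (htr : ∀ j : ℕ, 0 < j → ∃ t : ℤ, Algebra.trace ℚ K (z ^ j) = (((p : ℤ) ^ a * t : ℤ) : ℚ)) :
    IsIntegral ℤ (z / (p : K)) := by
  classical
  have hcard : Fintype.card (K →ₐ[ℚ] ℂ) = finrank ℚ K := AlgHom.card ℚ K ℂ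
  obtain ⟨σ₀⟩ : Nonempty (K →ₐ[ℚ] ℂ) := Fintype.card_pos_iff.mp (hcard ▸ finrank_pos)
  have h := isIntegral_div_prime_of_psum (fun σ : K →ₐ[ℚ] ℂ => σ z)
    (fun σ => hz.map σ) hp (a := a) (by rw [hcard]; exact ha) (fun j hj => by
      obtain ⟨t, ht⟩ := htr j hj
      refine ⟨t, ?_⟩
      have := trace_eq_sum_embeddings (K := ℚ) (L := K) ℂ (x := z ^ j)
      simp only [map_pow] at this
      rw [← this, ht]
      simp) σ₀
  have h2 : σ₀ (z / (p : K)) = σ₀ z / (p : ℂ) := by
    rw [map_div₀, map_natCast]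
  rw [← h2] at h
  exact (isIntegral_algHom_iff (σ₀.toRingHom.toIntAlgHom) σ₀.toRingHom.injective).mp h


/-- Descent: if `y` pairs integrally (under the trace form) with all integers of `K` and
`p ^ a * y` is integral for some `a`, then already `p ^ (2 [K : ℚ]) * y` is integral. -/
theorem isIntegral_pow_mul_of_trace {p : ℕ} (hp : p.Prime) {y : K}
    (hy : ∀ u : K, IsIntegral ℤ u → ∃ t : ℤ, Algebra.trace ℚ K (y * u) = (t : ℚ)) (a : ℕ)
    (ha : IsIntegral ℤ ((p : K) ^ a * y)) :
    IsIntegral ℤ ((p : K) ^ (2 * finrank ℚ K) * y) := by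
  have hpK : IsIntegral ℤ (p : K) := by
    have := isIntegral_algebraMap (R := ℤ) (A := K) (x := (p : ℤ))
    simpa using this
  induction a with
  | zero =>
    have : (p : K) ^ (2 * finrank ℚ K) * y = (p : K) ^ (2 * finrank ℚ K) * ((p : K) ^ 0 * y) := by
      simp
    rw [this]
    exact (hpK.pow _).mul ha
  | succ a ih =>
    by_cases hle : a + 1 ≤ 2 * finrank ℚ K
    · have : (p : K) ^ (2 * finrank ℚ K) * y =
          (p : K) ^ (2 * finrank ℚ K - (a + 1)) * ((p : K) ^ (a + 1) * y) := by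
        rw [← mul_assoc, ← pow_add, Nat.sub_add_cancel hle]
      rw [this]
      exact (hpK.pow _).mul ha
    · apply ih
      have hp0 : (p : K) ≠ 0 := by exact_mod_cast hp.ne_zero
      have hdiv := isIntegral_div_prime_of_trace K hp (a := a + 1) (by omega) ha (fun j hj => by
        obtain ⟨j, rfl⟩ : ∃ i, j = i + 1 := ⟨j - 1, by omega⟩
        obtain ⟨t, ht⟩ := hy (((p : K) ^ (a + 1) * y) ^ j) (ha.pow j)
        refine ⟨t, ?_⟩
        have h1 : ((p : K) ^ (a + 1) * y) ^ (j + 1) =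
            ((p : ℚ) ^ (a + 1)) • (y * ((p : K) ^ (a + 1) * y) ^ j) := by
          rw [Algebra.smul_def, pow_succ]
          simp only [map_pow, map_natCast]
          ring
        rw [h1, map_smul, ht]
        simp)
      have h2 : (p : K) ^ (a + 1) * y / (p : K) = (p : K) ^ a * y := by
        rw [pow_succ]; field_simp
      rwa [h2] at hdiv


/-- Membership in the different ideal of `𝓞 K / ℤ` in terms of the trace dual. -/
lemma mem_differentIdeal_of_forall (c : 𝓞 K)
    (h : ∀ x : K, (∀ u : K, IsIntegral ℤ u → ∃ t : ℤ, Algebra.trace ℚ K (x * u) = (t : ℚ)) →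
      IsIntegral ℤ ((c : K) * x)) :
    c ∈ differentIdeal ℤ (𝓞 K) := by
  have h1 : algebraMap (𝓞 K) K c ∈ IsLocalization.coeSubmodule K (differentIdeal ℤ (𝓞 K)) := by
    rw [coeSubmodule_differentIdeal ℤ ℚ (𝓞 K), Submodule.mem_div_iff_forall_mul_mem]
    intro x hx
    rw [Submodule.mem_traceDual] at hx
    have hx' : ∀ u : K, IsIntegral ℤ u → ∃ t : ℤ, Algebra.trace ℚ K (x * u) = (t : ℚ) := by
      intro u hu
      obtain ⟨t, ht⟩ := hx u (Submodule.mem_one.mpr ⟨⟨u, hu⟩, rfl⟩)
      exact ⟨t, by simpa [Algebra.traceForm_apply] using ht.symm⟩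
    have := h x hx'
    exact Submodule.mem_one.mpr ⟨⟨_, this⟩, rfl⟩
  obtain ⟨y, hy, hyc⟩ := (IsLocalization.mem_coeSubmodule K _).mp h1
  have : y = c := FaithfulSMul.algebraMap_injective (𝓞 K) K hyc
  exact this ▸ hy

/-- For `x` in the trace dual of `𝓞 K`, `discr K * x` is integral. -/
lemma isIntegral_discr_mul {x : K}
    (hx : ∀ u : K, IsIntegral ℤ u → ∃ t : ℤ, Algebra.trace ℚ K (x * u) = (t : ℚ)) :
    IsIntegral ℤ (((discr K : ℤ) : K) * x) := by
  have hmem := discr_mem_differentIdeal K (𝓞 K)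
  have h1 : algebraMap (𝓞 K) K ((discr K : ℤ) : 𝓞 K) ∈
      IsLocalization.coeSubmodule K (differentIdeal ℤ (𝓞 K)) :=
    (IsLocalization.mem_coeSubmodule K _).mpr ⟨_, hmem, rfl⟩
  rw [coeSubmodule_differentIdeal ℤ ℚ (𝓞 K), Submodule.mem_div_iff_forall_mul_mem] at h1
  have hx' : x ∈ Submodule.traceDual ℤ ℚ (1 : Submodule (𝓞 K) K) := by
    rw [Submodule.mem_traceDual]
    intro u hu
    obtain ⟨w, rfl⟩ := Submodule.mem_one.mp hu
    obtain ⟨t, ht⟩ := hx _ w.isIntegral_coe
    exact ⟨t, by simpa [Algebra.traceForm_apply] using ht.symm⟩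
  obtain ⟨w, hw⟩ := Submodule.mem_one.mp (h1 x hx')
  have : ((discr K : ℤ) : K) * x = algebraMap (𝓞 K) K w := by
    rw [hw]; simp
  rw [this]
  exact w.isIntegral_coe

/-- **Elementary bound for the discriminant exponent**: if `p ^ e ∣ discr K` for a prime `p`,
then `e ≤ 2 [K : ℚ] ^ 2`. -/
theorem le_of_pow_dvd_discr {p : ℕ} (hp : p.Prime) {e : ℕ} (h : (p : ℤ) ^ e ∣ discr K) :
    e ≤ 2 * finrank ℚ K ^ 2 := by
  set n := finrank ℚ K with hn
  set D := (discr K).natAbs with hD
  have hD0 : D ≠ 0 := Int.natAbs_ne_zero.mpr (discr_ne_zero K)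
  set v := D.factorization p with hv
  have hev : e ≤ v := by
    apply (hp.pow_dvd_iff_le_factorization hD0).mp
    have := Int.natAbs_dvd_natAbs.mpr h
    simpa [Int.natAbs_pow] using this
  have hDv : p ^ v * (D / p ^ v) = D := Nat.ordProj_mul_ordCompl_eq_self D p
  set N' := D / p ^ v with hN'
  have hnd : ¬ p ∣ N' := Nat.not_dvd_ordCompl hp hD0
  -- the element `c = p ^ (2 n) * N'` lies in the different
  have hc : ((p ^ (2 * n) * N' : ℕ) : 𝓞 K) ∈ differentIdeal ℤ (𝓞 K) := by
    apply mem_differentIdeal_of_forall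
    intro x hx
    have hy : ∀ u : K, IsIntegral ℤ u →
        ∃ t : ℤ, Algebra.trace ℚ K (((N' : K) * x) * u) = (t : ℚ) := by
      intro u hu
      obtain ⟨t, ht⟩ := hx u hu
      refine ⟨N' * t, ?_⟩
      have : (N' : K) * x * u = (N' : ℚ) • (x * u) := by
        rw [Algebra.smul_def]; simp [mul_assoc]
      rw [this, map_smul, ht]; simp
    have hint : IsIntegral ℤ ((p : K) ^ v * ((N' : K) * x)) := by
      have h1 := isIntegral_discr_mul K hx
      have h2 : (p : K) ^ v * ((N' : K) * x) = ((D : ℤ) : K) * x := by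
        rw [← mul_assoc]
        congr 1
        have : ((p ^ v * N' : ℕ) : K) = ((D : ℕ) : K) := by rw [hDv]
        push_cast at this ⊢
        exact this
      rw [h2]
      rcases Int.natAbs_eq (discr K) with h3 | h3
      · rw [← hD] at h3
        rw [← h3]; exact h1
      · rw [← hD] at h3
        have : ((D : ℤ) : K) * x = -(((discr K : ℤ) : K) * x) := by
          rw [h3]; push_cast; ring
        rw [this]; exact h1.neg
    have := isIntegral_pow_mul_of_trace K hp hy v hint
    have h4 : ((((p ^ (2 * n) * N' : ℕ) : 𝓞 K) : 𝓞 K) : K) * x =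
        (p : K) ^ (2 * finrank ℚ K) * ((N' : K) * x) := by
      push_cast
      ring
    rw [h4]; exact this
  -- compare norms
  have hle : Ideal.span {((p ^ (2 * n) * N' : ℕ) : 𝓞 K)} ≤ differentIdeal ℤ (𝓞 K) :=
    (Ideal.span_singleton_le_iff_mem _).mpr hc
  have hdvd := Ideal.absNorm_dvd_absNorm_of_le hle
  rw [absNorm_differentIdeal K, Ideal.absNorm_span_singleton] at hdvd
  have hnorm : (Algebra.norm ℤ ((p ^ (2 * n) * N' : ℕ) : 𝓞 K)).natAbs = (p ^ (2 * n) * N') ^ n := by
    have : ((p ^ (2 * n) * N' : ℕ) : 𝓞 K) = algebraMap ℤ (𝓞 K) ((p ^ (2 * n) * N' : ℕ) : ℤ) := by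
      simp
    rw [this, Algebra.norm_algebraMap, RingOfIntegers.rank, Int.natAbs_pow, Int.natAbs_natCast]
  rw [hnorm, ← hD, ← hDv, mul_pow, ← pow_mul] at hdvd
  have h5 : p ^ v ∣ p ^ (2 * n * n) * N' ^ n := (dvd_mul_right _ _).trans hdvd
  have hcop : Nat.Coprime (p ^ v) (N' ^ n) :=
    Nat.Coprime.pow _ _ ((Nat.Prime.coprime_iff_not_dvd hp).mpr hnd)
  have h6 : p ^ v ∣ p ^ (2 * n * n) := hcop.dvd_of_dvd_mul_right h5
  have h7 : v ≤ 2 * n * n := (Nat.pow_dvd_pow_iff_le_right hp.one_lt).mp h6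
  calc e ≤ v := hev
    _ ≤ 2 * n * n := h7
    _ = 2 * n ^ 2 := by ring

end NumberField

end Fermat.Agent.S17.H557
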