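import Mathlib
import Fermat.Prelude.Def_FLTPrelim_Ramification
import Fermat.Agent.S17.H557.DiscBound

/-!
# S17 / W-HM, part (3): Hermite–Minkowski from the discriminant bound

`finite_unramified_fields_of`: given the implication
"inertia at `ℓ` acts trivially on `K` ⟹ `ℓ ∤ discr K`" (part (1)), there are only finitely many
subfields `K ⊆ ℚ̄` of degree `≤ d` unramified outside a finite set `S` of primes.
-/

set_option autoImplicit false

namespace Fermat.Agent.S17.H557

open NumberField Module

/-- The number field structure on a finite-dimensional intermediate field of `ℚ̄ / ℚ`. -/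
lemma numberField_of_finiteDimensional (K : IntermediateField ℚ (AlgebraicClosure ℚ))
    (hK : FiniteDimensional ℚ K) : NumberField K :=
  @NumberField.mk _ _ inferInstance hK

/-- Inertia-form unramifiedness of a subfield of `ℚ̄` at a prime `ℓ` (as in the S17 skeleton). -/
def InertiaFixes (K : IntermediateField ℚ (AlgebraicClosure ℚ)) (ℓ : ℕ) : Prop :=
  ∀ A : ValuationSubring (AlgebraicClosure ℚ), A.LiesOverPrime ℓ →
    ∀ σ ∈ A.inertiaSubgroupIn ℚ, ∀ a ∈ K, σ a = a

/-- Part (1) of Hermite–Minkowski in inertia form, as a hypothesis. -/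
def UnramDiscrStatement : Prop :=
  ∀ (K : IntermediateField ℚ (AlgebraicClosure ℚ)) (hK : FiniteDimensional ℚ K) (ℓ : ℕ),
    ℓ.Prime → InertiaFixes K ℓ →
      ¬ ((ℓ : ℤ) ∣ @NumberField.discr K _ (numberField_of_finiteDimensional K hK))

/-- A natural number all of whose prime factors lie in `S` and occur with exponent `≤ E`
is at most `∏ p ∈ S, (p + 1) ^ E`. -/
lemma le_prod_of_factorization_le {D : ℕ} (hD : D ≠ 0) (S : Finset ℕ) (E : ℕ)
    (hS : ∀ p, p.Prime → p ∣ D → p ∈ S) (hE : ∀ p, p.Prime → D.factorization p ≤ E) :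
    D ≤ ∏ p ∈ S, (p + 1) ^ E := by
  calc D = ∏ p ∈ D.primeFactors, p ^ D.factorization p := by
        conv_lhs => rw [← Nat.prod_factorization_pow_eq_self hD]
        rfl
    _ ≤ ∏ p ∈ D.primeFactors, (p + 1) ^ E := by
        apply Finset.prod_le_prod'
        intro p hp
        have hpp := Nat.prime_of_mem_primeFactors hp
        calc p ^ D.factorization p ≤ p ^ E := Nat.pow_le_pow_right hpp.pos (hE p hpp)
          _ ≤ (p + 1) ^ E := Nat.pow_le_pow_left (Nat.le_succ p) E
    _ ≤ ∏ p ∈ S, (p + 1) ^ E := by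
        apply Finset.prod_le_prod_of_subset_of_one_le'
        · intro p hp
          exact hS p (Nat.prime_of_mem_primeFactors hp) (Nat.dvd_of_mem_primeFactors hp)
        · intro p _ _
          exact Nat.one_le_pow _ _ (Nat.succ_pos p)

/-- **Hermite–Minkowski** (inertia form), modulo part (1). -/
theorem finite_unramified_fields_of (h1 : UnramDiscrStatement) (S : Finset ℕ) (d : ℕ) :
    {K : IntermediateField ℚ (AlgebraicClosure ℚ) | FiniteDimensional ℚ K ∧
      Module.finrank ℚ K ≤ d ∧
      ∀ ℓ : ℕ, ℓ.Prime → ℓ ∉ S →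
        ∀ A : ValuationSubring (AlgebraicClosure ℚ), A.LiesOverPrime ℓ →
          ∀ σ ∈ A.inertiaSubgroupIn ℚ, ∀ a ∈ K, σ a = a}.Finite := by
  classical
  set B : ℕ := ∏ p ∈ S, (p + 1) ^ (2 * d ^ 2) with hB
  have hfin := NumberField.finite_of_discr_bdd (AlgebraicClosure ℚ) B
  refine (hfin.image Subtype.val).subset ?_
  rintro K ⟨hK, hd, hunr⟩
  refine ⟨⟨K, hK⟩, ?_, rfl⟩
  have : NumberField K := numberField_of_finiteDimensional K hK
  show |discr K| ≤ (B : ℤ)
  have hD0 : (discr K).natAbs ≠ 0 := Int.natAbs_ne_zero.mpr (discr_ne_zero K)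
  have hle : (discr K).natAbs ≤ B := by
    apply le_prod_of_factorization_le hD0
    · intro p hp hpD
      by_contra hpS
      refine h1 K hK p hp (hunr p hp hpS) ?_
      exact Int.natCast_dvd.mpr hpD
    · intro p hp
      have h2 : (p : ℤ) ^ ((discr K).natAbs.factorization p) ∣ discr K := by
        rw [← Int.natAbs_dvd_natAbs, Int.natAbs_pow, Int.natAbs_natCast]
        exact Nat.ordProj_dvd _ _
      have h3 := le_of_pow_dvd_discr K hp h2
      calc (discr K).natAbs.factorization p ≤ 2 * finrank ℚ K ^ 2 := h3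
        _ ≤ 2 * d ^ 2 := by gcongr
  rw [Int.abs_eq_natAbs]
  exact_mod_cast hle

end Fermat.Agent.S17.H557
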