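import Mathlib

/-!
# S17 / tower H, piece MINK: Siegel's lemma in Plücker-height form (over `ℚ`)

For a `d × n` rational matrix `A` of rank `d < n` with Plücker vector
`p s = det (A.submatrix id s)` (`s : Fin d → Fin n`), there is a non-zero integer vector `a`
with `A a = 0` and `max |a_j| ^ (n - d) ≤ (n - d) ^ (n - d) * H(p)`, `H` the multiplicative
(projective) height.

The proof is by the box principle; the number of boxes is bounded by the index of a lattice,
which is computed through a multilinear expansion of a determinant (no volumes).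
-/

set_option autoImplicit false

namespace Fermat.Agent.S17.H557

open Matrix Finset

/-- Multilinear expansion of the determinant of the product of a `d × ι` and an `ι × d` matrix
(the Cauchy–Binet formula, indexed by all functions `Fin d → ι`). -/
lemma det_mul_eq_sum_functions {R : Type*} [CommRing R] {d : ℕ} {ι : Type*} [Fintype ι]
    [DecidableEq ι] (G : Matrix (Fin d) ι R) (C : Matrix ι (Fin d) R) :
    (G * C).det = ∑ s : Fin d → ι, (∏ i, C (s i) i) * (G.submatrix id s).det := by
  simp only [Matrix.det_apply, Matrix.mul_apply, Matrix.submatrix_apply, id]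
  have h1 : ∀ σ : Equiv.Perm (Fin d),
      ∏ i, ∑ a, G (σ i) a * C a i = ∑ s : Fin d → ι, ∏ i, G (σ i) (s i) * C (s i) i := by
    intro σ
    rw [Finset.prod_univ_sum]
    simp
  simp_rw [h1, Finset.smul_sum, Finset.mul_sum]
  rw [Finset.sum_comm]
  refine Finset.sum_congr rfl fun s _ => Finset.sum_congr rfl fun σ _ => ?_
  rw [Finset.prod_mul_distrib]
  simp only [Units.smul_def, zsmul_eq_mul]
  ring


section Index

variable {d : ℕ} {ι : Type*} [Fintype ι] [DecidableEq ι]

/-- The lattice `D • ℤ^d`. -/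
noncomputable def smulLattice (d : ℕ) (D : ℕ) : Submodule ℤ (Fin d → ℤ) :=
  LinearMap.range ((D : ℤ) • (LinearMap.id : (Fin d → ℤ) →ₗ[ℤ] (Fin d → ℤ)))

lemma mem_smulLattice {D : ℕ} {x : Fin d → ℤ} :
    x ∈ smulLattice d D ↔ ∃ y : Fin d → ℤ, x = (D : ℤ) • y := by
  simp only [smulLattice, LinearMap.mem_range, LinearMap.smul_apply, LinearMap.id_coe, id_eq]
  exact ⟨fun ⟨y, hy⟩ => ⟨y, hy.symm⟩, fun ⟨y, hy⟩ => ⟨y, hy.symm⟩⟩

lemma smul_id_injective {D : ℕ} (hD : 0 < D) :
    Function.Injective ((D : ℤ) • (LinearMap.id : (Fin d → ℤ) →ₗ[ℤ] (Fin d → ℤ))) := by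
  intro x y h
  simp only [LinearMap.smul_apply, LinearMap.id_coe, id_eq] at h
  have hD' : (D : ℤ) ≠ 0 := by exact_mod_cast hD.ne'
  exact smul_right_injective _ hD' h

/-- The linear equivalence `ℤ^d ≃ D • ℤ^d`. -/
noncomputable def smulEquiv (d : ℕ) {D : ℕ} (hD : 0 < D) :
    (Fin d → ℤ) ≃ₗ[ℤ] smulLattice d D :=
  LinearEquiv.ofInjective _ (smul_id_injective (d := d) hD)

/-- The index of `D • ℤ^d` in `ℤ^d` is `D ^ d`. -/
lemma card_quotient_smulLattice {D : ℕ} (hD : 0 < D) :
    Nat.card ((Fin d → ℤ) ⧸ smulLattice d D) = D ^ d := by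
  have h := Submodule.natAbs_det_equiv (smulLattice d D) (smulEquiv d hD)
  rw [← h]
  have h2 : (smulLattice d D).subtype ∘ₗ
      (AddMonoidHom.toIntLinearMap ((smulEquiv d hD : (Fin d → ℤ) →+ smulLattice d D))) =
      (D : ℤ) • (LinearMap.id : (Fin d → ℤ) →ₗ[ℤ] (Fin d → ℤ)) := by
    ext x i
    rfl
  rw [h2, LinearMap.det_smul, LinearMap.det_id, mul_one, Module.finrank_fin_fun, Int.natAbs_pow,
    Int.natAbs_natCast]

/-- **Index bound.** Let `G` be an integral `d × ι` matrix whose column lattice contains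
`D • ℤ^d` and all of whose `d × d` minors are divisible by `D ^ (d - 1)`.  Then among more than `D`
integer vectors two have images under `G` that are congruent modulo `D • ℤ^d`. -/
theorem exists_ne_mulVec_sub_mem (G : Matrix (Fin d) ι ℤ) {D : ℕ} (hD : 0 < D)
    (hminor : ∀ s : Fin d → ι, (D : ℤ) ^ (d - 1) ∣ (G.submatrix id s).det)
    (hid : ∀ y : Fin d → ℤ, ∃ c : ι → ℤ, G.mulVec c = (D : ℤ) • y)
    (B : Finset (ι → ℤ)) (hB : D < B.card) :
    ∃ c ∈ B, ∃ c' ∈ B, c ≠ c' ∧ ∃ y : Fin d → ℤ, G.mulVec (c - c') = (D : ℤ) • y := by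
  classical
  set L := smulLattice d D with hL
  set N : Submodule ℤ (Fin d → ℤ) := LinearMap.range G.mulVecLin with hN
  have hLN : L ≤ N := by
    intro x hx
    obtain ⟨y, rfl⟩ := mem_smulLattice.mp hx
    obtain ⟨c, hc⟩ := hid y
    exact ⟨c, by simpa using hc⟩
  -- rank of `N`
  have hfrL : Module.finrank ℤ L = d := by
    rw [← (smulEquiv d hD).finrank_eq, Module.finrank_fin_fun]
  have hfrN : Module.finrank ℤ N = d := by
    refine le_antisymm ?_ ?_
    · have := Submodule.finrank_le N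
      rwa [Module.finrank_fin_fun] at this
    · calc d = Module.finrank ℤ L := hfrL.symm
        _ ≤ Module.finrank ℤ N := Submodule.finrank_mono hLN
  let bN : Module.Basis (Fin d) ℤ N := Module.finBasisOfFinrankEq ℤ N hfrN
  -- coordinates of the basis vectors
  have hex : ∀ j : Fin d, ∃ c : ι → ℤ, G.mulVec c = (bN j : Fin d → ℤ) := by
    intro j
    obtain ⟨c, hc⟩ := (bN j).2
    exact ⟨c, by simpa using hc⟩
  choose C hC using hex
  have hmat : (Pi.basisFun ℤ (Fin d)).toMatrix (Subtype.val ∘ bN) =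
      G * Matrix.of (fun a j => C j a) := by
    ext i j
    rw [Module.Basis.toMatrix_apply, Pi.basisFun_repr, Function.comp_apply, ← hC j]
    simp [Matrix.mulVec, dotProduct, Matrix.mul_apply]
  have hdet : (D : ℤ) ^ (d - 1) ∣ (Pi.basisFun ℤ (Fin d)).det (Subtype.val ∘ bN) := by
    rw [Module.Basis.det_apply, hmat, det_mul_eq_sum_functions]
    exact Finset.dvd_sum fun s _ => Dvd.dvd.mul_left (hminor s) _
  have hcardN := Submodule.natAbs_det_basis_change (Pi.basisFun ℤ (Fin d)) N bN
  have hmul := Submodule.card_quotient_mul_card_quotient N L hLN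
  rw [card_quotient_smulLattice hD, ← hcardN] at hmul
  -- the number of classes is at most `D`
  set J := Nat.card (Submodule.map L.mkQ N) with hJ
  have hJD : J ≤ D ∧ J ≠ 0 := by
    obtain ⟨z, hz⟩ := hdet
    rw [hz, Int.natAbs_mul, Int.natAbs_pow, Int.natAbs_natCast] at hmul
    have hDd : D ^ d ≠ 0 := pow_ne_zero _ hD.ne'
    have hJ0 : J ≠ 0 := by
      rintro h0
      rw [h0, zero_mul] at hmul
      exact hDd hmul.symm
    have hz0 : z.natAbs ≠ 0 := by
      rintro h0
      rw [h0, mul_zero, mul_zero] at hmul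
      exact hDd hmul.symm
    refine ⟨?_, hJ0⟩
    rcases Nat.eq_zero_or_pos d with hd | hd
    · subst hd
      simp only [zero_tsub, pow_zero, one_mul] at hmul
      have : J = 1 := Nat.eq_one_of_mul_eq_one_right hmul
      omega
    · have h3 : D ^ d = D ^ (d - 1) * D := by
        rw [← pow_succ]; congr 1; omega
      rw [h3] at hmul
      have h4 : D ^ (d - 1) * (J * z.natAbs) = D ^ (d - 1) * D := by
        rw [← hmul]; ring
      have h5 : J * z.natAbs = D := Nat.eq_of_mul_eq_mul_left (pow_pos hD _) h4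
      calc J ≤ J * z.natAbs := Nat.le_mul_of_pos_right _ (Nat.pos_of_ne_zero hz0)
        _ = D := h5
  have : Finite (Submodule.map L.mkQ N) := Nat.finite_of_card_ne_zero hJD.2
  let _ : Fintype (Submodule.map L.mkQ N) := Fintype.ofFinite _
  let f : (ι → ℤ) → Submodule.map L.mkQ N := fun c =>
    ⟨L.mkQ (G.mulVec c), Submodule.mem_map_of_mem ⟨c, by simp⟩⟩
  have hcard : (Finset.univ : Finset (Submodule.map L.mkQ N)).card < B.card := by
    rw [Finset.card_univ, ← Nat.card_eq_fintype_card]
    exact lt_of_le_of_lt hJD.1 hB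
  obtain ⟨c, hc, c', hc', hne, heq⟩ := Finset.exists_ne_map_eq_of_card_lt_of_maps_to hcard
    (f := f) (fun _ _ => Finset.mem_coe.mpr (Finset.mem_univ _))
  refine ⟨c, hc, c', hc', hne, ?_⟩
  have h6 : L.mkQ (G.mulVec c) = L.mkQ (G.mulVec c') := congrArg Subtype.val heq
  rw [Submodule.mkQ_apply, Submodule.mkQ_apply, Submodule.Quotient.eq] at h6
  obtain ⟨y, hy⟩ := mem_smulLattice.mp h6
  exact ⟨y, by rw [Matrix.mulVec_sub, hy]⟩

end Index

section Box

variable {d : ℕ} {ι : Type*} [Fintype ι] [DecidableEq ι]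

/-- the vector `∑ i, y i • e_{s₀ i}` -/
def liftVec (s₀ : Fin d → ι) (y : Fin d → ℤ) : ι → ℤ :=
  fun j => ∑ i, if s₀ i = j then y i else 0

lemma mulVec_liftVec (G : Matrix (Fin d) ι ℤ) (D : ℤ) (s₀ : Fin d → ι)
    (hs₀ : G.submatrix id s₀ = D • (1 : Matrix (Fin d) (Fin d) ℤ)) (y : Fin d → ℤ) :
    G.mulVec (liftVec s₀ y) = D • y := by
  ext r
  simp only [Matrix.mulVec, dotProduct, liftVec, Pi.smul_apply, smul_eq_mul]
  simp_rw [Finset.mul_sum]
  rw [Finset.sum_comm]
  have h1 : ∀ i : Fin d, ∑ j, G r j * (if s₀ i = j then y i else 0) = G r (s₀ i) * y i := by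
    intro i
    rw [Finset.sum_eq_single (s₀ i)]
    · simp
    · intro j _ hj
      simp [Ne.symm hj]
    · intro h; exact absurd (Finset.mem_univ _) h
  simp_rw [h1]
  have h2 : ∀ i : Fin d, G r (s₀ i) = if r = i then D else 0 := by
    intro i
    have := congrFun (congrFun hs₀ r) i
    simpa [Matrix.submatrix_apply, Matrix.one_apply] using this
  simp_rw [h2]
  simp

omit [Fintype ι] in
lemma liftVec_apply_of_not_mem (s₀ : Fin d → ι) (y : Fin d → ℤ) {j : ι}
    (hj : ∀ i, s₀ i ≠ j) : liftVec s₀ y j = 0 := by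
  simp only [liftVec]
  exact Finset.sum_eq_zero fun i _ => by simp [hj i]

omit [Fintype ι] in
lemma liftVec_apply_self (s₀ : Fin d → ι) (hinj : Function.Injective s₀) (y : Fin d → ℤ)
    (i : Fin d) : liftVec s₀ y (s₀ i) = y i := by
  simp only [liftVec]
  rw [Finset.sum_eq_single i]
  · simp
  · intro i' _ hi'
    have : s₀ i' ≠ s₀ i := fun h => hi' (hinj h)
    simp [this]
  · intro h; exact absurd (Finset.mem_univ _) h

/-- **Box principle.**  Integral version of Siegel's lemma for a matrix in normal form. -/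
theorem exists_small_kernel_vector (G : Matrix (Fin d) ι ℤ) {D : ℕ} (hD : 0 < D)
    (s₀ : Fin d → ι) (hinj : Function.Injective s₀)
    (hs₀ : G.submatrix id s₀ = (D : ℤ) • (1 : Matrix (Fin d) (Fin d) ℤ))
    (hminor : ∀ s : Fin d → ι, (D : ℤ) ^ (d - 1) ∣ (G.submatrix id s).det)
    (hentry : ∀ i j, |G i j| ≤ D) {k : ℕ} (hk : Fintype.card ι = d + k) (hk1 : 1 ≤ k)
    {X : ℕ} (hX : D < (X + 1) ^ k) :
    ∃ a : ι → ℤ, a ≠ 0 ∧ G.mulVec a = 0 ∧ ∀ j, |a j| ≤ (k * X : ℕ) := by
  classical
  set T : Finset ι := Finset.univ \ Finset.univ.image s₀ with hT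
  have hTcard : T.card = k := by
    rw [hT, Finset.card_sdiff_of_subset (Finset.subset_univ _), Finset.card_univ, hk,
      Finset.card_image_of_injective _ hinj, Finset.card_univ, Fintype.card_fin]
    omega
  have hmemT : ∀ j, j ∈ T ↔ ∀ i, s₀ i ≠ j := by
    intro j
    simp [hT]
  -- the box
  set B : Finset (ι → ℤ) :=
    Fintype.piFinset (fun j => if j ∈ T then Finset.Icc (0 : ℤ) X else {0}) with hB
  have hBcard : B.card = (X + 1) ^ k := by
    rw [hB, Fintype.card_piFinset]
    have : ∀ j : ι, (if j ∈ T then Finset.Icc (0 : ℤ) X else {0}).card =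
        if j ∈ T then X + 1 else 1 := by
      intro j
      split_ifs
      · simp
      · simp
    simp_rw [this]
    rw [Finset.prod_ite, Finset.prod_const_one, mul_one, Finset.prod_const,
      Finset.filter_mem_eq_inter, Finset.univ_inter, hTcard]
  have hid : ∀ y : Fin d → ℤ, ∃ c : ι → ℤ, G.mulVec c = (D : ℤ) • y :=
    fun y => ⟨liftVec s₀ y, mulVec_liftVec G D s₀ hs₀ y⟩
  obtain ⟨c, hc, c', hc', hne, y, hy⟩ :=
    exists_ne_mulVec_sub_mem G hD hminor hid B (by rw [hBcard]; exact hX)
  rw [hB, Fintype.mem_piFinset] at hc hc'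
  have hcT : ∀ j, j ∉ T → c j = 0 := fun j hj => by
    have := hc j; rw [if_neg hj] at this; simpa using this
  have hcT' : ∀ j, j ∉ T → c' j = 0 := fun j hj => by
    have := hc' j; rw [if_neg hj] at this; simpa using this
  have hcb : ∀ j, 0 ≤ c j ∧ c j ≤ X := fun j => by
    by_cases hj : j ∈ T
    · have := hc j; rw [if_pos hj, Finset.mem_Icc] at this; exact this
    · rw [hcT j hj]; exact ⟨le_rfl, by positivity⟩
  have hcb' : ∀ j, 0 ≤ c' j ∧ c' j ≤ X := fun j => by
    by_cases hj : j ∈ T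
    · have := hc' j; rw [if_pos hj, Finset.mem_Icc] at this; exact this
    · rw [hcT' j hj]; exact ⟨le_rfl, by positivity⟩
  have hdiff : ∀ j, |c j - c' j| ≤ X := fun j => by
    rw [abs_le]; constructor <;> linarith [hcb j, hcb' j]
  refine ⟨c - c' - liftVec s₀ y, ?_, ?_, ?_⟩
  · -- non-zero
    obtain ⟨j, hj⟩ : ∃ j, c j ≠ c' j := by
      by_contra hcon
      push Not at hcon
      exact hne (funext hcon)
    have hjT : j ∈ T := by
      by_contra hjT
      exact hj ((hcT j hjT).trans (hcT' j hjT).symm)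
    intro h0
    have := congrFun h0 j
    simp only [Pi.sub_apply, Pi.zero_apply,
      liftVec_apply_of_not_mem s₀ y ((hmemT j).mp hjT), sub_zero] at this
    exact hj (sub_eq_zero.mp this)
  · rw [Matrix.mulVec_sub, hy, mulVec_liftVec G D s₀ hs₀, sub_self]
  · intro j
    by_cases hjT : j ∈ T
    · simp only [Pi.sub_apply, liftVec_apply_of_not_mem s₀ y ((hmemT j).mp hjT), sub_zero]
      calc |c j - c' j| ≤ X := hdiff j
        _ ≤ (k * X : ℕ) := by
          have : X ≤ k * X := Nat.le_mul_of_pos_left _ hk1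
          exact_mod_cast this
    · obtain ⟨i, rfl⟩ : ∃ i, s₀ i = j := by
        by_contra hcon
        push Not at hcon
        exact hjT ((hmemT j).mpr hcon)
      simp only [Pi.sub_apply, hcT _ hjT, hcT' _ hjT, sub_self, zero_sub,
        liftVec_apply_self s₀ hinj, abs_neg]
      -- bound `y i`
      have h1 : (D : ℤ) * y i = ∑ j ∈ T, G i j * (c j - c' j) := by
        have := congrFun hy i
        simp only [Matrix.mulVec, dotProduct, Pi.smul_apply, smul_eq_mul, Pi.sub_apply] at this
        rw [← this]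
        symm
        apply Finset.sum_subset (Finset.subset_univ _)
        intro j _ hj
        rw [hcT j hj, hcT' j hj, sub_self, mul_zero]
      have h2 : |(D : ℤ) * y i| ≤ (D : ℤ) * (k * X : ℕ) := by
        rw [h1]
        calc |∑ j ∈ T, G i j * (c j - c' j)| ≤ ∑ j ∈ T, |G i j * (c j - c' j)| :=
              Finset.abs_sum_le_sum_abs _ _
          _ ≤ ∑ _j ∈ T, (D : ℤ) * X := by
              apply Finset.sum_le_sum
              intro j _
              rw [abs_mul]
              exact mul_le_mul (hentry i j) (hdiff j) (abs_nonneg _) (by positivity)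
          _ = (D : ℤ) * (k * X : ℕ) := by
              rw [Finset.sum_const, hTcard]
              push_cast
              ring
      rw [abs_mul, Nat.abs_cast] at h2
      exact le_of_mul_le_mul_left h2 (by exact_mod_cast hD)

end Box

section Rational

open Height

variable {d n : ℕ}

/-- The Plücker vector of a `d × n` matrix: all `d × d` minors, indexed by the functions
`Fin d → Fin n` choosing the columns. -/
noncomputable def pluecker {R : Type*} [CommRing R] (A : Matrix (Fin d) (Fin n) R) :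
    (Fin d → Fin n) → R :=
  fun s => (A.submatrix id s).det

/-- A non-zero rational vector is a non-zero rational multiple of a primitive integer vector. -/
lemma exists_primitive {κ : Type*} [Fintype κ] (p : κ → ℚ) (hp : p ≠ 0) :
    ∃ (c : ℚ) (P : κ → ℤ), c ≠ 0 ∧ Finset.univ.gcd P = 1 ∧ ∀ s, p s = c * P s := by
  classical
  -- common denominator
  set m : ℕ := ∏ s, (p s).den with hm
  have hm0 : (m : ℚ) ≠ 0 := by
    rw [hm]; push_cast
    exact Finset.prod_ne_zero_iff.mpr fun s _ => by exact_mod_cast (p s).den_nz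
  have hz : ∀ s, ∃ z : ℤ, (m : ℚ) * p s = z := by
    intro s
    refine ⟨(p s).num * ∏ t ∈ Finset.univ.erase s, ((p t).den : ℤ), ?_⟩
    rw [hm, ← Finset.mul_prod_erase Finset.univ _ (Finset.mem_univ s)]
    push_cast
    have := Rat.den_mul_eq_num (p s)
    calc ((p s).den : ℚ) * (∏ x ∈ Finset.univ.erase s, ((p x).den : ℚ)) * p s
        = ((p s).den * p s) * ∏ x ∈ Finset.univ.erase s, ((p x).den : ℚ) := by ring
      _ = _ := by rw [this]
  choose z hz using hz
  have hne : (Finset.univ : Finset κ).Nonempty := by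
    by_contra h
    rw [Finset.not_nonempty_iff_eq_empty, Finset.univ_eq_empty_iff] at h
    exact hp (funext fun s => (h.false s).elim)
  obtain ⟨P, hP, hgcd⟩ := Finset.extract_gcd z hne
  set g := Finset.univ.gcd z with hg
  have hg0 : g ≠ 0 := by
    intro h0
    rw [Finset.gcd_eq_zero_iff] at h0
    apply hp
    funext s
    have h1 := hz s
    rw [h0 s (Finset.mem_univ s), Int.cast_zero] at h1
    exact (mul_eq_zero.mp h1).resolve_left hm0
  refine ⟨(g : ℚ) / m, P, div_ne_zero (by exact_mod_cast hg0) hm0, hgcd, fun s => ?_⟩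
  have h1 := hz s
  rw [hP s (Finset.mem_univ s)] at h1
  push_cast at h1
  field_simp
  linear_combination h1


/-- the entries of a matrix whose `s₀`-columns form the identity are minors -/
lemma entry_eq_det_update {R : Type*} [CommRing R] (G : Matrix (Fin d) (Fin n) R)
    (s₀ : Fin d → Fin n) (hG : G.submatrix id s₀ = 1) (i : Fin d) (j : Fin n) :
    G i j = (G.submatrix id (Function.update s₀ i j)).det := by
  have h1 : G.submatrix id (Function.update s₀ i j) =
      (1 : Matrix (Fin d) (Fin d) R).updateCol i (fun r => G r j) := by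
    ext r t
    rw [Matrix.submatrix_apply, Matrix.updateCol_apply, id]
    by_cases ht : t = i
    · subst ht; simp
    · rw [if_neg ht, Function.update_of_ne ht, ← hG]
      rfl
  rw [h1, ← Matrix.cramer_apply, Matrix.cramer_one]
  rfl

/-- existence of the box size -/
lemma exists_box_size (D : ℕ) {k : ℕ} (hk : 1 ≤ k) :
    ∃ X : ℕ, D < (X + 1) ^ k ∧ X ^ k ≤ D := by
  classical
  have hex : ∃ X : ℕ, D < (X + 1) ^ k :=
    ⟨D, lt_of_lt_of_le (Nat.lt_succ_self D) (Nat.le_self_pow (by omega) _)⟩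
  refine ⟨Nat.find hex, Nat.find_spec hex, ?_⟩
  rcases Nat.eq_zero_or_pos (Nat.find hex) with h0 | hpos
  · rw [h0, zero_pow (by omega)]; exact Nat.zero_le _
  · have := Nat.find_min hex (Nat.sub_lt hpos Nat.one_pos)
    rw [Nat.sub_add_cancel hpos] at this
    exact not_lt.mp this


/-- **Siegel's lemma in Plücker-height form.**  Let `A` be a rational `d × n` matrix, `n = d + k`,
`k ≥ 1`, with non-zero Plücker vector (i.e. of rank `d`).  Then there is a non-zero integer vector
`a` with `A a = 0` and `|a_j| ^ k ≤ k ^ k * H (pluecker A)` for all `j`. -/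
theorem siegel_pluecker {k : ℕ} (hn : n = d + k) (hk : 1 ≤ k) (A : Matrix (Fin d) (Fin n) ℚ)
    (hA : pluecker A ≠ 0) :
    ∃ a : Fin n → ℤ, a ≠ 0 ∧ A.mulVec (fun j => (a j : ℚ)) = 0 ∧
      ∀ j, (|a j| : ℝ) ^ k ≤ (k : ℝ) ^ k * mulHeight (pluecker A) := by
  classical
  obtain ⟨c, P, hc, hgcd, hpP⟩ := exists_primitive (pluecker A) hA
  have hne : Nonempty (Fin d → Fin n) := by
    by_contra h
    rw [not_nonempty_iff] at h
    exact hA (funext fun s => (h.false s).elim)
  obtain ⟨s₀, hmax⟩ := Finite.exists_max (fun s => |P s|)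
  have hP0 : P s₀ ≠ 0 := by
    intro h0
    have hall : ∀ s, P s = 0 := fun s => by
      have := hmax s
      rw [h0, abs_zero] at this
      exact abs_eq_zero.mp (le_antisymm this (abs_nonneg _))
    have : Finset.univ.gcd P = 0 := Finset.gcd_eq_zero_iff.mpr fun s _ => hall s
    rw [this] at hgcd
    exact zero_ne_one hgcd
  set D : ℕ := (P s₀).natAbs with hD
  have hDpos : 0 < D := Int.natAbs_pos.mpr hP0
  have hDabs : (D : ℤ) = |P s₀| := by rw [hD, Int.natCast_natAbs]
  -- the height
  have hheight : mulHeight (pluecker A) = D := by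
    have h1 : pluecker A = c • (((↑) : ℤ → ℚ) ∘ P) := by
      funext s; simp [hpP s]
    rw [h1, mulHeight_smul_eq_mulHeight _ hc, Rat.mulHeight_eq_max_abs_of_gcd_eq_one hgcd]
    have h2 : (⨆ s, |P s|) = |P s₀| :=
      le_antisymm (ciSup_le hmax)
        (le_ciSup (f := fun s => |P s|) (Set.finite_range _).bddAbove s₀)
    rw [h2, ← hDabs]
    simp
  -- the normal form
  set A₀ : Matrix (Fin d) (Fin d) ℚ := A.submatrix id s₀ with hA₀
  have hdetA₀ : A₀.det = c * P s₀ := hpP s₀
  have hdet0 : A₀.det ≠ 0 := by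
    rw [hdetA₀]; exact mul_ne_zero hc (by exact_mod_cast hP0)
  have hunit : IsUnit A₀.det := isUnit_iff_ne_zero.mpr hdet0
  set G' : Matrix (Fin d) (Fin n) ℚ := A₀⁻¹ * A with hG'
  have hsub : ∀ s : Fin d → Fin n, G'.submatrix id s = A₀⁻¹ * A.submatrix id s := by
    intro s; ext i j; simp [hG', Matrix.mul_apply]
  have hG'₀ : G'.submatrix id s₀ = 1 := by
    rw [hsub, ← hA₀, Matrix.nonsing_inv_mul _ hunit]
  have hdetG' : ∀ s, (G'.submatrix id s).det = (P s : ℚ) / P s₀ := by
    intro s
    rw [hsub, Matrix.det_mul, Matrix.det_nonsing_inv, Ring.inverse_eq_inv', hdetA₀]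
    have : (A.submatrix id s).det = c * P s := hpP s
    rw [this]
    have hP0' : (P s₀ : ℚ) ≠ 0 := by exact_mod_cast hP0
    field_simp
  have hentry' : ∀ i j, G' i j = (P (Function.update s₀ i j) : ℚ) / P s₀ := fun i j => by
    rw [entry_eq_det_update G' s₀ hG'₀ i j, hdetG']
  -- the sign
  set ε : ℤ := (P s₀).sign with hε
  have hεP : ε * P s₀ = D := by rw [hε, hDabs, Int.sign_mul_self_eq_abs]
  have hDε : ∀ x : ℤ, (D : ℚ) * ((x : ℚ) / P s₀) = ((ε * x : ℤ) : ℚ) := by
    intro x
    have hP0' : (P s₀ : ℚ) ≠ 0 := by exact_mod_cast hP0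
    have : (D : ℚ) = (ε : ℚ) * P s₀ := by exact_mod_cast hεP.symm
    rw [this]; push_cast; field_simp
  have hεabs : ∀ x : ℤ, |ε * x| = |x| := by
    intro x
    rw [abs_mul, hε, Int.abs_sign_of_ne_zero hP0, one_mul]
  -- the integral matrix
  set G : Matrix (Fin d) (Fin n) ℤ := Matrix.of fun i j => ε * P (Function.update s₀ i j) with hG
  have hGG' : G.map ((↑) : ℤ → ℚ) = (D : ℚ) • G' := by
    ext i j
    simp only [Matrix.map_apply, hG, Matrix.of_apply, Matrix.smul_apply, smul_eq_mul]
    rw [hentry', hDε]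
  have hcastinj : Function.Injective ((↑) : ℤ → ℚ) := Int.cast_injective
  have hGs₀ : G.submatrix id s₀ = (D : ℤ) • (1 : Matrix (Fin d) (Fin d) ℤ) := by
    have h1 : (G.submatrix id s₀).map ((↑) : ℤ → ℚ) =
        ((D : ℤ) • (1 : Matrix (Fin d) (Fin d) ℤ)).map ((↑) : ℤ → ℚ) := by
      rw [← Matrix.submatrix_map, hGG']
      ext i j
      have := congrFun (congrFun hG'₀ i) j
      simp only [Matrix.submatrix_apply, id] at this
      simp only [Matrix.submatrix_apply, Matrix.smul_apply, id, this, Matrix.map_apply,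
        smul_eq_mul, Matrix.one_apply]
      split_ifs <;> simp
    ext i j
    exact hcastinj (congrFun (congrFun h1 i) j)
  have hminor : ∀ s : Fin d → Fin n, (D : ℤ) ^ (d - 1) ∣ (G.submatrix id s).det := by
    intro s
    rcases Nat.eq_zero_or_pos d with hd | hd
    · subst hd; simp
    · refine ⟨ε * P s, hcastinj ?_⟩
      have h1 : (((G.submatrix id s).det : ℤ) : ℚ) = ((G.submatrix id s).map ((↑) : ℤ → ℚ)).det :=
        (Int.castRingHom ℚ).map_det _
      rw [h1, ← Matrix.submatrix_map, hGG']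
      have h2 : ((D : ℚ) • G').submatrix id s = (D : ℚ) • G'.submatrix id s := by
        ext i j; simp
      rw [h2, Matrix.det_smul, hdetG', Fintype.card_fin]
      have h3 : (D : ℚ) ^ d = (D : ℚ) ^ (d - 1) * D := by
        rw [← pow_succ]; congr 1; omega
      rw [h3, mul_assoc, hDε]
      push_cast
      ring
  have hentry : ∀ i j, |G i j| ≤ D := by
    intro i j
    simp only [hG, Matrix.of_apply]
    rw [hεabs, hDabs]
    exact hmax _
  have hinj : Function.Injective s₀ := by
    intro i i' hii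
    by_contra hne'
    apply hdet0
    apply Matrix.det_zero_of_column_eq hne'
    intro r
    simp only [hA₀, Matrix.submatrix_apply, hii]
  obtain ⟨X, hX1, hX2⟩ := exists_box_size D hk
  obtain ⟨a, ha0, haG, hab⟩ := exists_small_kernel_vector G hDpos s₀ hinj hGs₀ hminor hentry
    (k := k) (by rw [Fintype.card_fin, hn]) hk hX1
  refine ⟨a, ha0, ?_, ?_⟩
  · -- `A a = 0`
    have h1 : (G.map ((↑) : ℤ → ℚ)).mulVec (fun j => (a j : ℚ)) = 0 := by
      ext i
      have := congrFun haG i
      simp only [Matrix.mulVec, dotProduct, Pi.zero_apply, Matrix.map_apply] at this ⊢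
      exact_mod_cast this
    rw [hGG', Matrix.smul_mulVec] at h1
    have hD0 : (D : ℚ) ≠ 0 := by exact_mod_cast hDpos.ne'
    have h2 : G'.mulVec (fun j => (a j : ℚ)) = 0 := by
      rcases smul_eq_zero.mp h1 with h | h
      · exact absurd h hD0
      · exact h
    rw [hG', ← Matrix.mulVec_mulVec] at h2
    have h3 := congrArg (A₀.mulVec) h2
    rw [Matrix.mulVec_mulVec, Matrix.mul_nonsing_inv _ hunit, Matrix.one_mulVec,
      Matrix.mulVec_zero] at h3
    exact h3
  · intro j
    rw [hheight]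
    have h1 : (|a j| : ℝ) ≤ (k * X : ℕ) := by exact_mod_cast hab j
    calc (|a j| : ℝ) ^ k ≤ ((k * X : ℕ) : ℝ) ^ k := by
          apply pow_le_pow_left₀ (by positivity) h1
      _ = (k : ℝ) ^ k * ((X ^ k : ℕ) : ℝ) := by push_cast; ring
      _ ≤ (k : ℝ) ^ k * (D : ℝ) := by
          apply mul_le_mul_of_nonneg_left _ (by positivity)
          exact_mod_cast hX2


/-- **Siegel's lemma, height form.**  In the situation of `siegel_pluecker` there is a non-zero
rational (even primitive integral) solution `a` of `A a = 0` with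
`H(a) ^ k ≤ k ^ k * H(pluecker A)`. -/
theorem siegel_pluecker_height {k : ℕ} (hn : n = d + k) (hk : 1 ≤ k)
    (A : Matrix (Fin d) (Fin n) ℚ) (hA : pluecker A ≠ 0) :
    ∃ a : Fin n → ℤ, a ≠ 0 ∧ Finset.univ.gcd a = 1 ∧ A.mulVec (fun j => (a j : ℚ)) = 0 ∧
      mulHeight (fun j => (a j : ℚ)) ^ k ≤ (k : ℝ) ^ k * mulHeight (pluecker A) := by
  classical
  obtain ⟨a, ha0, haA, hab⟩ := siegel_pluecker hn hk A hA
  have hnpos : 0 < n := by omega
  have : Nonempty (Fin n) := ⟨⟨0, hnpos⟩⟩
  obtain ⟨a', ha', hgcd⟩ := Finset.extract_gcd a (Finset.univ_nonempty (α := Fin n))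
  set g := Finset.univ.gcd a with hg
  have hg0 : g ≠ 0 := by
    intro h0
    rw [Finset.gcd_eq_zero_iff] at h0
    exact ha0 (funext fun j => h0 j (Finset.mem_univ j))
  have ha'0 : a' ≠ 0 := by
    intro h0
    rw [h0] at hgcd
    have : Finset.univ.gcd (0 : Fin n → ℤ) = 0 :=
      Finset.gcd_eq_zero_iff.mpr fun _ _ => rfl
    rw [this] at hgcd
    exact zero_ne_one hgcd
  refine ⟨a', ha'0, hgcd, ?_, ?_⟩
  · have h1 : (fun j => (a j : ℚ)) = (g : ℚ) • (fun j => (a' j : ℚ)) := by
      funext j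
      simp [ha' j (Finset.mem_univ j)]
    rw [h1, Matrix.mulVec_smul] at haA
    rcases smul_eq_zero.mp haA with h | h
    · exact absurd h (by exact_mod_cast hg0)
    · exact h
  · have h1 : mulHeight (fun j => (a' j : ℚ)) = ((⨆ j, |a' j| : ℤ) : ℝ) :=
      Rat.mulHeight_eq_max_abs_of_gcd_eq_one hgcd
    obtain ⟨j₀, hj₀⟩ := Finite.exists_max (fun j => |a' j|)
    have h2 : (⨆ j, |a' j|) = |a' j₀| :=
      le_antisymm (ciSup_le hj₀)
        (le_ciSup (f := fun j => |a' j|) (Set.finite_range _).bddAbove j₀)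
    rw [h1, h2]
    have h3 : |a' j₀| ≤ |a j₀| := by
      rw [ha' j₀ (Finset.mem_univ j₀), abs_mul]
      have : 1 ≤ |g| := Int.one_le_abs hg0
      nlinarith [abs_nonneg (a' j₀)]
    calc ((|a' j₀| : ℤ) : ℝ) ^ k ≤ (|a j₀| : ℝ) ^ k := by
          apply pow_le_pow_left₀ (by positivity)
          exact_mod_cast h3
      _ ≤ _ := hab j₀

/-- **Siegel's lemma, logarithmic form**: `h(a) ≤ h(pluecker A) / k + log k`. -/
theorem siegel_pluecker_logHeight {k : ℕ} (hn : n = d + k) (hk : 1 ≤ k)
    (A : Matrix (Fin d) (Fin n) ℚ) (hA : pluecker A ≠ 0) :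
    ∃ a : Fin n → ℤ, a ≠ 0 ∧ Finset.univ.gcd a = 1 ∧ A.mulVec (fun j => (a j : ℚ)) = 0 ∧
      logHeight (fun j => (a j : ℚ)) ≤ logHeight (pluecker A) / k + Real.log k := by
  obtain ⟨a, ha0, hgcd, haA, hab⟩ := siegel_pluecker_height hn hk A hA
  refine ⟨a, ha0, hgcd, haA, ?_⟩
  have hkpos : (0 : ℝ) < k := by exact_mod_cast hk
  have h1 := Real.log_le_log (pow_pos (mulHeight_pos _) k) hab
  rw [Real.log_pow, Real.log_mul (by positivity) (mulHeight_ne_zero _), Real.log_pow] at h1
  simp only [logHeight_eq_log_mulHeight]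
  rw [div_add' _ _ _ hkpos.ne', le_div_iff₀ hkpos]
  linarith

end Rational

end Fermat.Agent.S17.H557
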